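/-
S44 / DEPTH, block FIN (architect helper219): finiteness of `R / 𝔭` over a henselian base.
DEFINITIONS.
-/
import Fermat.Agent.S44.Depth.Defs

set_option autoImplicit false

noncomputable section

namespace Fermat.Agent.S44.Depth

open Fermat.Agent.S18 Fermat.Agent.S36.BP Polynomial

/-- **Henselian, in coefficient form**: all the roots of an irreducible polynomial have the same
valuation.  For `P` monic irreducible: either `P` has integral coefficients, and if moreover `P(0)`
is a non-unit then all the lower coefficients are non-units; or `P(0)` is not integral and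
`P / P(0) ∈ 1 + 𝔪 X A₀[X]`. -/
def Hens {K₀ : Type*} [Field K₀] (A₀ : ValuationSubring K₀) : Prop :=
  ∀ P : K₀[X], Irreducible P → P.Monic →
    ((∀ i, P.coeff i ∈ A₀) ∧
      (A₀.valuation (P.coeff 0) < 1 → ∀ i < P.natDegree, A₀.valuation (P.coeff i) < 1)) ∨
    (P.coeff 0 ≠ 0 ∧ ∀ i, 1 ≤ i → A₀.valuation (P.coeff i / P.coeff 0) < 1)

/-- The statement of the field `IsNode.fin`. -/
def FinAt {K F : Type*} [Field K] [Field F] [Algebra K F] (A : ValuationSubring K)
    (R : Subring F) : Prop :=
  ∀ W : ValuationSubring F, Hor K R W → ∃ S : Finset F, (∀ s ∈ S, s ∈ R) ∧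
    ∀ r ∈ R, ∃ c : F → K, (∀ s, c s ∈ A) ∧
      W.valuation (r - ∑ s ∈ S, algebraMap K F (c s) * s) < 1

end Fermat.Agent.S44.Depth

end
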