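/-
S44 / DEPTH, block FIN, node FIN-H0: abstract criterion for `Hens`.

Let `P` be monic irreducible over `K₀`; over `Ω` (algebraically closed) `P = ∏ (X - y)` over the
multiset of its roots.  `Ω / K₀` is normal, so two roots are conjugate under `Ω ≃ₐ[K₀] Ω`; by `hconj`
all the roots have "the same valuation" (`≤ 1`, `< 1`, `> 1`), and the lemmas of `Fin/RootCoeff.lean`
give the valuations of the coefficients.
-/
import Fermat.Agent.S44.Depth.Fin.Defs
import Fermat.Agent.S44.Depth.Fin.RootCoeff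

set_option autoImplicit false

noncomputable section

namespace Fermat.Agent.S44.Depth

open Fermat.Agent.S18 Fermat.Agent.S36.BP Polynomial IntermediateField

variable {K₀ : Type*} [Field K₀]

private theorem HensConj.lt_one_iff {L : Type*} [Field L] (V : ValuationSubring L) (y : L) :
    V.valuation y < 1 ↔ y = 0 ∨ y⁻¹ ∉ V := by
  by_cases hy : y = 0
  · simp [hy]
  · rw [← V.valuation_le_one_iff, not_le, V.valuation.one_lt_val_iff (inv_ne_zero hy), inv_inv]
    simp [hy]

private theorem HensConj.one_lt_iff {L : Type*} [Field L] (V : ValuationSubring L) (y : L) :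
    1 < V.valuation y ↔ y ∉ V := by
  rw [← V.valuation_le_one_iff, not_le]

/-- FIN-H0: abstract criterion for `Hens`. -/
theorem hens_of_conj {Ω : Type*} [Field Ω] [Algebra K₀ Ω] [IsAlgClosed Ω]
    [Algebra.IsAlgebraic K₀ Ω] {A₀ : ValuationSubring K₀} (AΩ : ValuationSubring Ω)
    (hext : ∀ a : K₀, algebraMap K₀ Ω a ∈ AΩ ↔ a ∈ A₀)
    (hconj : ∀ (σ : Ω ≃ₐ[K₀] Ω) (y : Ω), y ∈ AΩ → σ y ∈ AΩ) : Hens A₀ := by
  intro P hP hPm
  have : IsAlgClosure K₀ Ω := ⟨inferInstance, inferInstance⟩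
  have : Normal K₀ Ω := IsAlgClosure.normal K₀ Ω
  -- conjugation and the valuation
  have hmem : ∀ (σ : Ω ≃ₐ[K₀] Ω) (y : Ω), σ y ∈ AΩ ↔ y ∈ AΩ := fun σ y =>
    ⟨fun h => by simpa using hconj σ.symm _ h, hconj σ y⟩
  have hlt : ∀ (σ : Ω ≃ₐ[K₀] Ω) (y : Ω), AΩ.valuation (σ y) < 1 ↔ AΩ.valuation y < 1 := by
    intro σ y
    rw [HensConj.lt_one_iff, HensConj.lt_one_iff, ← map_inv₀, hmem, map_eq_zero_iff σ σ.injective]
  have hgt : ∀ (σ : Ω ≃ₐ[K₀] Ω) (y : Ω), 1 < AΩ.valuation (σ y) ↔ 1 < AΩ.valuation y := by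
    intro σ y
    rw [HensConj.one_lt_iff, HensConj.one_lt_iff, hmem]
  -- translation between `A₀` and `AΩ`
  have htr : ∀ a : K₀, AΩ.valuation (algebraMap K₀ Ω a) < 1 ↔ A₀.valuation a < 1 := by
    intro a
    rw [HensConj.lt_one_iff, HensConj.lt_one_iff, ← map_inv₀, hext,
      map_eq_zero_iff _ (algebraMap K₀ Ω).injective]
  -- the roots
  set Q : Polynomial Ω := P.map (algebraMap K₀ Ω) with hQ
  have hQm : Q.Monic := hPm.map _
  have hsp : Q.Splits := IsAlgClosed.splits _
  set s : Multiset Ω := Q.roots with hs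
  have hprod : Q = (s.map fun β => X - C β).prod := hsp.eq_prod_roots_of_monic hQm
  have hcard : Multiset.card s = P.natDegree := by
    rw [hs, ← hsp.natDegree_eq_card_roots, hQ, natDegree_map]
  have hcoeff : ∀ i, ((s.map fun β => X - C β).prod).coeff i = algebraMap K₀ Ω (P.coeff i) := by
    intro i
    rw [← hprod, hQ, coeff_map]
  have hroot : ∀ β ∈ s, aeval β P = 0 := by
    intro β hβ
    have := (mem_roots'.1 hβ).2
    rwa [IsRoot.def, hQ, eval_map_algebraMap] at this
  obtain ⟨α, hα⟩ : ∃ α, α ∈ s := by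
    rw [← Multiset.card_pos_iff_exists_mem, hcard]
    exact hP.natDegree_pos
  have hcj : ∀ β ∈ s, ∃ σ : Ω ≃ₐ[K₀] Ω, σ α = β := by
    intro β hβ
    refine minpoly.exists_algEquiv_of_root (Algebra.IsAlgebraic.isAlgebraic β) ?_
    rw [← minpoly.eq_of_irreducible_of_monic hP (hroot β hβ) hPm]
    exact hroot α hα
  by_cases hαA : α ∈ AΩ
  · left
    have hall : ∀ β ∈ s, β ∈ AΩ := by
      intro β hβ
      obtain ⟨σ, rfl⟩ := hcj β hβ
      exact (hmem σ α).2 hαA
    refine ⟨fun i => ?_, fun h0 i hi => ?_⟩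
    · rw [← hext, ← hcoeff]
      exact FIN.coeff_prod_mem AΩ s hall i
    · have hα1 : AΩ.valuation α < 1 := by
        by_contra hcon
        have hone : ∀ β ∈ s, AΩ.valuation β = 1 := by
          intro β hβ
          obtain ⟨σ, rfl⟩ := hcj β hβ
          refine le_antisymm ((AΩ.valuation_le_one_iff _).2 ((hmem σ α).2 hαA)) (not_lt.1 ?_)
          rwa [hlt]
        have h1 := FIN.valuation_coeff_zero_prod AΩ s hone
        rw [hcoeff] at h1
        have h2 := (htr _).2 h0
        rw [h1] at h2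
        exact lt_irrefl _ h2
      have hall1 : ∀ β ∈ s, AΩ.valuation β < 1 := by
        intro β hβ
        obtain ⟨σ, rfl⟩ := hcj β hβ
        exact (hlt σ α).2 hα1
      rw [← htr, ← hcoeff]
      exact FIN.coeff_prod_lt AΩ s hall1 i (hcard ▸ hi)
  · right
    have hall : ∀ β ∈ s, 1 < AΩ.valuation β := by
      intro β hβ
      obtain ⟨σ, rfl⟩ := hcj β hβ
      exact (hgt σ α).2 ((HensConj.one_lt_iff AΩ α).2 hαA)
    have hne : ∀ β ∈ s, β ≠ 0 := by
      intro β hβ h0
      have := hall β hβ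
      rw [h0, map_zero] at this
      exact not_lt_zero this
    refine ⟨fun h0 => ?_, fun i hi => ?_⟩
    · apply FIN.coeff_zero_prod_ne_zero s hne
      rw [hcoeff, h0, map_zero]
    · rw [← htr, map_div₀, ← hcoeff, ← hcoeff]
      exact FIN.coeff_prod_div_lt AΩ s hall i hi

end Fermat.Agent.S44.Depth

end
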