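/-
S44 / DEPTH, block FIN, node FIN-H (helper124; statement of helper219's skeleton
`Depth/WIP/Fin.lean`): the ring of integers of the inertia field is henselian.

PROOF.  `hens_of_conj` with `Ω = Qb` (an algebra over the intermediate field `K0 A`; algebraically
closed; algebraic over `K0 A` because algebraic over `ℚ`: `Algebra.IsAlgebraic.tower_top`), `AΩ = A`,
`hext = Iff.rfl` (`mem_A0_iff`).  `hconj`: `σ : Qb ≃ₐ[K0 A] Qb` restricts scalars to an element `σ'` of
`GQ` which fixes `K0 A = fixedField (inertia)`; the inertia subgroup is closed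
(`Lib/InertiaField/Closed.lean`), so `σ'` lies in it (infinite Galois correspondence:
`InfiniteGalois.fixingSubgroup_fixedField` for closed subgroups), hence in the decomposition group
(`inertia_le_decomposition`), and `apply_mem_of_mem_decomposition` applies.
-/
import Fermat.Agent.S44.Depth.Fin.HensConj
import Fermat.Agent.Lib.InertiaField.Defs
import Fermat.Agent.Lib.InertiaField.Closed

set_option autoImplicit false

noncomputable section

namespace Fermat.Agent.S44.Depth

open Fermat.Agent.S18 Fermat.Agent.S36.BP Polynomial IntermediateField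

/-- FIN-H: the ring of integers of the inertia field is henselian. -/
theorem hens_A0 (A : ValuationSubring Lib.InertiaField.Qb) :
    Hens (Lib.InertiaField.A0 A) := by
  have h0 : Algebra.IsAlgebraic ℚ Lib.InertiaField.Qb := AlgebraicClosure.isAlgebraic ℚ
  have : Algebra.IsAlgebraic (Lib.InertiaField.K0 A) Lib.InertiaField.Qb :=
    Algebra.IsAlgebraic.tower_top (K := ℚ) (Lib.InertiaField.K0 A)
  refine hens_of_conj (Ω := Lib.InertiaField.Qb) A (fun a => Iff.rfl) ?_
  intro σ y hy
  have h : (σ.restrictScalars ℚ) ∈ A.inertiaSubgroupIn ℚ :=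
    (Lib.InertiaField.mem_inertia_iff_fixes_K0 A _).2 (fun x hx => σ.commutes ⟨x, hx⟩)
  exact Lib.InertiaField.apply_mem_of_mem_decomposition A
    (Lib.InertiaField.inertia_le_decomposition A h) hy

end Fermat.Agent.S44.Depth

end
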