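/-
S44 / DEPTH, block FIN (sub-architect helper289): the abstract reduction datum.
-/
import Fermat.Agent.S44.Depth.Fin.Defs

set_option autoImplicit false

namespace Fermat.Agent.S44.Depth.FIN

variable {K₀ κ B : Type*} [Field K₀] [Field κ] [Algebra K₀ κ] [CommRing B]

/-- `ψ : B → κ` is a "reduction" of the `A₀`-algebra `B` modulo a prime contained in `𝔫 ∋ ϖ₀`
(`κ` = residue field of a horizontal valuation ring `W`, `B` = a chart, `ψ` = the residue map). -/
structure Red (A₀ : ValuationSubring K₀) (ϖ₀ : K₀) (ψ : B →+* κ) (𝔫 : Ideal B) : Prop where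
  ker : ∀ b, ψ b = 0 → b ∈ 𝔫
  const : ∀ a ∈ A₀, ∃ b : B, ψ b = algebraMap K₀ κ a
  unif : ∀ b : B, ψ b = algebraMap K₀ κ ϖ₀ → b ∈ 𝔫

end Fermat.Agent.S44.Depth.FIN
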