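/-
S44 / DEPTH, block FIN, node C (helper11): over a henselian base the reduction of a chart modulo a
horizontal prime is integral and local.
-/
import Fermat.Agent.S44.Depth.Fin.Red

set_option autoImplicit false

noncomputable section

namespace Fermat.Agent.S44.Depth.FIN

open Fermat.Agent.S18 Fermat.Agent.S36.BP Polynomial IntermediateField

section Abs

variable {K₀ κ B : Type*} [Field K₀] [Field κ] [Algebra K₀ κ] [CommRing B]

variable {A₀ : ValuationSubring K₀} {ϖ₀ : K₀} {ψ : B →+* κ} {𝔫 : Ideal B}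

private theorem core_unif_ne_zero (hU : IsUnif A₀ ϖ₀) : ϖ₀ ≠ 0 := by
  rintro rfl
  apply hU.inv_notMem
  rw [inv_zero]
  exact A₀.zero_mem

private theorem core_val_unif_lt_one (hU : IsUnif A₀ ϖ₀) : A₀.valuation ϖ₀ < 1 := by
  by_contra hc
  rw [not_lt] at hc
  apply hU.inv_notMem
  rw [← A₀.valuation_le_one_iff, map_inv₀]
  exact inv_le_one_of_one_le₀ hc

private theorem core_div_mem (hU : IsUnif A₀ ϖ₀) {a : K₀} (ha : A₀.valuation a < 1) :
    a / ϖ₀ ∈ A₀ := by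
  rcases eq_or_ne a 0 with rfl | ha0
  · rw [zero_div]
    exact A₀.zero_mem
  have hϖ := core_unif_ne_zero hU
  have hv0 : A₀.valuation ϖ₀ ≠ 0 := (Valuation.ne_zero_iff _).2 hϖ
  obtain ⟨n, h1, h2⟩ := hU.exists_zpow a ha0
  have hn : 1 ≤ n := by
    by_contra hn
    have hn' : n ≤ 0 := by omega
    -- `a⁻¹ = (a / ϖ ^ n)⁻¹ * ϖ ^ (-n)` is integral
    have h3 : a⁻¹ ∈ A₀ := by
      have e : a⁻¹ = (a / ϖ₀ ^ n)⁻¹ * ϖ₀ ^ (-n).toNat := by
        have : (ϖ₀ ^ (-n).toNat : K₀) = ϖ₀ ^ (-n) := by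
          rw [← zpow_natCast, Int.toNat_of_nonneg (by omega)]
        rw [this, zpow_neg, inv_div]
        have := zpow_ne_zero n hϖ
        field_simp
      rw [e]
      exact mul_mem h2 (pow_mem hU.mem _)
    have h4 := (A₀.valuation_le_one_iff _).2 h3
    rw [map_inv₀] at h4
    have h5 : 1 ≤ A₀.valuation a :=
      (inv_le_one₀ (zero_lt_iff.2 ((Valuation.ne_zero_iff _).2 ha0))).1 h4
    exact absurd ha (not_lt.2 h5)
  have e : a / ϖ₀ = (a / ϖ₀ ^ n) * ϖ₀ ^ (n - 1).toNat := by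
    have : (ϖ₀ ^ (n - 1).toNat : K₀) = ϖ₀ ^ (n - 1) := by
      rw [← zpow_natCast, Int.toNat_of_nonneg (by omega)]
    rw [this, zpow_sub_one₀ hϖ]
    have := zpow_ne_zero n hϖ
    field_simp
  rw [e]
  exact mul_mem h1 (pow_mem hU.mem _)

/-- (L1) -/
private theorem core_exists_of_coeff_mem (h : Red A₀ ϖ₀ ψ 𝔫) (b : B) (Q : K₀[X])
    (hQ : ∀ i, Q.coeff i ∈ A₀) : ∃ t : B, ψ t = aeval (ψ b) Q := by
  choose c hc using fun i => h.const (Q.coeff i) (hQ i)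
  refine ⟨∑ i ∈ Finset.range (Q.natDegree + 1), c i * b ^ i, ?_⟩
  rw [aeval_eq_sum_range, map_sum]
  refine Finset.sum_congr rfl fun i _ => ?_
  rw [map_mul, map_pow, hc, Algebra.smul_def]

/-- (L2) -/
private theorem core_exists_of_coeff_lt (hU : IsUnif A₀ ϖ₀) (h : Red A₀ ϖ₀ ψ 𝔫) (b : B)
    (Q : K₀[X]) (hQ : ∀ i, A₀.valuation (Q.coeff i) < 1) :
    ∃ t ∈ 𝔫, ψ t = aeval (ψ b) Q := by
  have hϖ := core_unif_ne_zero hU
  obtain ⟨t', ht'⟩ := core_exists_of_coeff_mem h b (C ϖ₀⁻¹ * Q) fun i => by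
    rw [coeff_C_mul, inv_mul_eq_div]
    exact core_div_mem hU (hQ i)
  obtain ⟨π, hπ⟩ := h.const ϖ₀ hU.mem
  refine ⟨π * t', 𝔫.mul_mem_right _ (h.unif π hπ), ?_⟩
  rw [map_mul, hπ, ht', map_mul, aeval_C, ← mul_assoc, ← map_mul, mul_inv_cancel₀ hϖ, map_one,
    one_mul]

/-- (X) -/
private theorem core_not_second [𝔫.IsPrime] (hU : IsUnif A₀ ϖ₀) (h : Red A₀ ϖ₀ ψ 𝔫) (b : B)
    (P : K₀[X]) (hP : aeval (ψ b) P = 0) :
    ¬ (P.coeff 0 ≠ 0 ∧ ∀ i, 1 ≤ i → A₀.valuation (P.coeff i / P.coeff 0) < 1) := by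
  rintro ⟨h0, h1⟩
  obtain ⟨t, ht, hψ⟩ := core_exists_of_coeff_lt hU h b (C (P.coeff 0)⁻¹ * P - 1) fun i => by
    rw [coeff_sub, coeff_C_mul, coeff_one]
    rcases Nat.eq_zero_or_pos i with rfl | hi
    · rw [if_pos rfl, inv_mul_cancel₀ h0, sub_self, map_zero]
      exact zero_lt_one
    · rw [if_neg (by omega), sub_zero, inv_mul_eq_div]
      exact h1 i hi
  rw [map_sub, map_mul, hP, mul_zero, map_one, zero_sub] at hψ
  have h2 : t + 1 ∈ 𝔫 := h.ker _ (by rw [map_add, hψ, map_one, neg_add_cancel])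
  have h3 : (1 : B) ∈ 𝔫 := by
    have := 𝔫.sub_mem h2 ht
    rwa [add_sub_cancel_left] at this
  exact (Ideal.IsPrime.ne_top inferInstance) ((Ideal.eq_top_iff_one 𝔫).2 h3)

theorem coeff_mem_of_red [𝔫.IsPrime] (hU : IsUnif A₀ ϖ₀) (hH : Hens A₀) (h : Red A₀ ϖ₀ ψ 𝔫)
    (b : B) (hb : IsAlgebraic K₀ (ψ b)) (i : ℕ) : (minpoly K₀ (ψ b)).coeff i ∈ A₀ := by
  rcases hH _ (minpoly.irreducible hb.isIntegral) (minpoly.monic hb.isIntegral) with h1 | h2
  · exact h1.1 i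
  · exact absurd h2 (core_not_second hU h b _ (minpoly.aeval _ _))

theorem exists_inv_of_red [𝔫.IsPrime] (hU : IsUnif A₀ ϖ₀) (hH : Hens A₀) (h : Red A₀ ϖ₀ ψ 𝔫)
    (s : B) (hs : s ∉ 𝔫) (hb : IsAlgebraic K₀ (ψ s)) : ∃ t : B, ψ s * ψ t = 1 := by
  have hmon := minpoly.monic hb.isIntegral
  have hev : aeval (ψ s) (minpoly K₀ (ψ s)) = 0 := minpoly.aeval _ _
  rcases hH _ (minpoly.irreducible hb.isIntegral) hmon with h1 | h2
  swap
  · exact absurd h2 (core_not_second hU h s _ hev)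
  obtain ⟨hint, hlow⟩ := h1
  generalize minpoly K₀ (ψ s) = P at hmon hev hint hlow
  have hP0 : ¬ A₀.valuation (P.coeff 0) < 1 := by
    intro hlt
    obtain ⟨t, ht, hψ⟩ := core_exists_of_coeff_lt hU h s (P - X ^ P.natDegree) fun i => by
      rw [coeff_sub, coeff_X_pow]
      rcases lt_trichotomy i P.natDegree with hi | hi | hi
      · rw [if_neg hi.ne, sub_zero]
        exact hlow hlt i hi
      · rw [if_pos hi, hi, hmon.coeff_natDegree, sub_self, map_zero]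
        exact zero_lt_one
      · rw [if_neg hi.ne', coeff_eq_zero_of_natDegree_lt hi, sub_self, map_zero]
        exact zero_lt_one
    rw [map_sub, hev, zero_sub, map_pow, aeval_X] at hψ
    have h2 : t + s ^ P.natDegree ∈ 𝔫 :=
      h.ker _ (by rw [map_add, hψ, map_pow, neg_add_cancel])
    have h3 : s ^ P.natDegree ∈ 𝔫 := by
      have := 𝔫.sub_mem h2 ht
      rwa [add_sub_cancel_left] at this
    exact hs (Ideal.IsPrime.mem_of_pow_mem inferInstance _ h3)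
  have hv1 : A₀.valuation (P.coeff 0) = 1 :=
    le_antisymm ((A₀.valuation_le_one_iff _).2 (hint 0)) (not_lt.1 hP0)
  have h0 : P.coeff 0 ≠ 0 := by
    intro h0
    rw [h0, map_zero] at hv1
    exact zero_ne_one hv1
  have hinv : (P.coeff 0)⁻¹ ∈ A₀ := by
    rw [← A₀.valuation_le_one_iff, map_inv₀, hv1, inv_one]
  obtain ⟨t, ht⟩ := core_exists_of_coeff_mem h s (C (-(P.coeff 0)⁻¹) * P.divX) fun i => by
    rw [coeff_C_mul, coeff_divX]
    exact mul_mem (neg_mem hinv) (hint _)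
  refine ⟨t, ?_⟩
  have e : aeval (ψ s) P.divX * ψ s + algebraMap K₀ κ (P.coeff 0) = 0 := by
    have := congrArg (aeval (ψ s)) (divX_mul_X_add P)
    rwa [map_add, map_mul, aeval_X, aeval_C, hev] at this
  have h0' : algebraMap K₀ κ (P.coeff 0) ≠ 0 := (_root_.map_ne_zero _).2 h0
  rw [ht, map_mul, aeval_C, map_neg, map_inv₀]
  have e' : aeval (ψ s) P.divX * ψ s = -algebraMap K₀ κ (P.coeff 0) := by
    linear_combination e
  calc ψ s * (-(algebraMap K₀ κ (P.coeff 0))⁻¹ * aeval (ψ s) P.divX)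
      = -(algebraMap K₀ κ (P.coeff 0))⁻¹ * (aeval (ψ s) P.divX * ψ s) := by ring
    _ = 1 := by rw [e', neg_mul_neg, inv_mul_cancel₀ h0']

end Abs

end Fermat.Agent.S44.Depth.FIN

end
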