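/-
S44 / DEPTH, block FIN (sub-architect helper289, proofs helper161), section S:
a module generated by the `z ^ a e` with `z` integral is finite; a finite module is integral.
-/
import Fermat.Agent.S44.Depth.Fin.Red

set_option autoImplicit false

noncomputable section

namespace Fermat.Agent.S44.Depth.FIN

open Fermat.Agent.S18 Fermat.Agent.S36.BP Polynomial IntermediateField

section Abs

variable {K₀ κ B : Type*} [Field K₀] [Field κ] [Algebra K₀ κ] [CommRing B]

variable {A₀ : ValuationSubring K₀} {ϖ₀ : K₀} {ψ : B →+* κ} {𝔫 : Ideal B}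

theorem span_of_monic (z : B) (P : K₀[X]) (hP : P.Monic) (hc : ∀ i, P.coeff i ∈ A₀)
    (hz : aeval (ψ z) P = 0) (S₀ : Finset B)
    (hS₀ : ∀ b : B, ψ b ∈ Submodule.span A₀.toSubring
      {y : κ | ∃ (a : ℕ) (e : B), e ∈ S₀ ∧ y = ψ z ^ a * ψ e}) :
    ∃ S : Finset B, ∀ b : B, ψ b ∈ Submodule.span A₀.toSubring (ψ '' (S : Set B)) := by
  classical
  refine ⟨(Finset.range P.natDegree ×ˢ S₀).image (fun ie : ℕ × B => z ^ ie.1 * ie.2),
    fun b => ?_⟩
  set N := Submodule.span A₀.toSubring (ψ '' (((Finset.range P.natDegree ×ˢ S₀).image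
    (fun ie : ℕ × B => z ^ ie.1 * ie.2) : Finset B) : Set B)) with hN
  have hpow : (ψ z) ^ P.natDegree =
      - ∑ i ∈ Finset.range P.natDegree, algebraMap K₀ κ (P.coeff i) * (ψ z) ^ i := by
    have h1 := hz
    rw [aeval_eq_sum_range, Finset.sum_range_succ, hP.coeff_natDegree, one_smul] at h1
    rw [eq_neg_iff_add_eq_zero, add_comm, ← h1]
    congr 1
    exact Finset.sum_congr rfl fun i _ => (Algebra.smul_def _ _).symm
  have key : ∀ a : ℕ, ∀ e ∈ S₀, ψ z ^ a * ψ e ∈ N := by
    intro a
    induction a using Nat.strong_induction_on with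
    | _ a ih =>
      intro e he
      by_cases had : a < P.natDegree
      · apply Submodule.subset_span
        refine ⟨z ^ a * e, ?_, by rw [map_mul, map_pow]⟩
        rw [Finset.mem_coe, Finset.mem_image]
        exact ⟨(a, e), Finset.mem_product.2 ⟨Finset.mem_range.2 had, he⟩, rfl⟩
      · rw [not_lt] at had
        have e1 : ψ z ^ a * ψ e = - ∑ i ∈ Finset.range P.natDegree,
            algebraMap K₀ κ (P.coeff i) * (ψ z ^ (a - P.natDegree + i) * ψ e) := by
          have h2 : ψ z ^ a = ψ z ^ (a - P.natDegree) * ψ z ^ P.natDegree := by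
            rw [← pow_add, Nat.sub_add_cancel had]
          rw [h2, hpow, mul_neg, neg_mul, Finset.mul_sum, Finset.sum_mul]
          congr 1
          refine Finset.sum_congr rfl fun i _ => ?_
          rw [pow_add]
          ring
        rw [e1]
        apply N.neg_mem
        apply N.sum_mem
        intro i hi
        have hlt : a - P.natDegree + i < a := by
          have := Finset.mem_range.1 hi
          omega
        have h3 := N.smul_mem (⟨P.coeff i, hc i⟩ : A₀.toSubring) (ih _ hlt e he)
        rwa [Subring.smul_def, Algebra.smul_def] at h3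
  refine Submodule.span_le.2 ?_ (hS₀ b)
  rintro y ⟨a, e, he, rfl⟩
  exact key a e he

theorem isAlgebraic_of_span (hconst : ∀ a ∈ A₀, ∃ b : B, ψ b = algebraMap K₀ κ a) (S : Finset B)
    (hS : ∀ b : B, ψ b ∈ Submodule.span A₀.toSubring (ψ '' (S : Set B))) (b : B) :
    IsAlgebraic K₀ (ψ b) := by
  classical
  have hrange : ∀ n ∈ Submodule.span A₀.toSubring (ψ '' (S : Set B)), ∃ b' : B, ψ b' = n := by
    intro n hn
    induction hn using Submodule.span_induction with
    | mem x hx =>
      obtain ⟨b', -, rfl⟩ := hx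
      exact ⟨b', rfl⟩
    | zero => exact ⟨0, map_zero ψ⟩
    | add x y _ _ hx hy =>
      obtain ⟨x', rfl⟩ := hx
      obtain ⟨y', rfl⟩ := hy
      exact ⟨x' + y', map_add ψ _ _⟩
    | smul a x _ hx =>
      obtain ⟨x', rfl⟩ := hx
      obtain ⟨b₀, hb₀⟩ := hconst a a.2
      exact ⟨b₀ * x', by rw [map_mul, hb₀, Subring.smul_def, Algebra.smul_def]⟩
  have hint : IsIntegral A₀.toSubring (ψ b) := by
    refine isIntegral_of_smul_mem_submodule
      (Submodule.span A₀.toSubring (ψ '' (S : Set B))) ?_ ?_ (ψ b) ?_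
    · intro hbot
      have h1 := hS 1
      rw [hbot, Submodule.mem_bot, map_one] at h1
      exact one_ne_zero h1
    · exact ⟨S.image ψ, by rw [Finset.coe_image]⟩
    · intro n hn
      obtain ⟨b', rfl⟩ := hrange n hn
      rw [smul_eq_mul, ← map_mul]
      exact hS _
  exact (hint.tower_top (A := K₀)).isAlgebraic

end Abs

end Fermat.Agent.S44.Depth.FIN

end
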