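/-
S44 / DEPTH, block FIN (sub-architect helper289): assembly of the abstract part
(proof of the skeleton `Fin/WIP/Skel.lean`, on the final leaves `Fin/Core.lean`, `Fin/Span.lean`).
-/
import Fermat.Agent.S44.Depth.Fin.Core
import Fermat.Agent.S44.Depth.Fin.Span

set_option autoImplicit false

noncomputable section

namespace Fermat.Agent.S44.Depth.FIN

open Fermat.Agent.S18 Fermat.Agent.S36.BP Polynomial IntermediateField

section Abs

variable {K₀ κ B : Type*} [Field K₀] [Field κ] [Algebra K₀ κ] [CommRing B]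

variable {A₀ : ValuationSubring K₀} {ϖ₀ : K₀} {ψ : B →+* κ} {𝔫 : Ideal B}

theorem fin_abs [𝔫.IsPrime] (hU : IsUnif A₀ ϖ₀) (hH : Hens A₀) (h : Red A₀ ϖ₀ ψ 𝔫) (z : B)
    (hz : IsAlgebraic K₀ (ψ z)) (S₀ : Finset B)
    (hS₀ : ∀ b : B, ψ b ∈ Submodule.span A₀.toSubring
      {y : κ | ∃ (a : ℕ) (e : B), e ∈ S₀ ∧ y = ψ z ^ a * ψ e}) :
    ∃ S : Finset B, ∀ (r : κ) (a s : B), s ∉ 𝔫 → r * ψ s = ψ a →
      ∃ c : B → K₀, (∀ x, c x ∈ A₀) ∧ r = ∑ x ∈ S, algebraMap K₀ κ (c x) * ψ x := by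
  obtain ⟨S, hS⟩ := span_of_monic (A₀ := A₀) z (minpoly K₀ (ψ z)) (minpoly.monic hz.isIntegral)
    (coeff_mem_of_red hU hH h z hz) (minpoly.aeval _ _) S₀ hS₀
  refine ⟨S, fun r a s hs hr => ?_⟩
  obtain ⟨t, ht⟩ := exists_inv_of_red hU hH h s hs (isAlgebraic_of_span h.const S hS s)
  have h1 : r = ψ (a * t) := by rw [map_mul, ← hr, mul_assoc, ht, mul_one]
  have h2 := hS (a * t)
  rw [Submodule.mem_span_image_finset_iff_exists_fun'] at h2
  obtain ⟨c, hc⟩ := h2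
  refine ⟨fun x => (c x : K₀), fun x => (c x).2, ?_⟩
  rw [h1, ← hc]
  refine Finset.sum_congr rfl fun x _ => ?_
  rw [Algebra.smul_def]
  rfl

end Abs

end Fermat.Agent.S44.Depth.FIN

end
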