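/-
S44 / DEPTH, block FIN, leaf A (helper277): a nontrivial valuation ring of `F` (finite over `K₀(z)`)
containing `K₀` and `z` has a nonzero polynomial `P(z)` in its maximal ideal.
-/
import Mathlib

set_option autoImplicit false

noncomputable section

namespace Fermat.Agent.S44.Depth.FIN

open Polynomial IntermediateField

section Alg

variable {K₀ F : Type*} [Field K₀] [Field F] [Algebra K₀ F]

theorem exists_poly_of_hor (z : F) (hfin : FiniteDimensional K₀⟮z⟯ F) (W : ValuationSubring F)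
    (hK : ∀ a : K₀, algebraMap K₀ F a ∈ W) (hz : z ∈ W) (hW : W ≠ ⊤) :
    ∃ P : K₀[X], P ≠ 0 ∧ W.valuation (aeval z P) < 1 := by
  by_contra hcon
  push_neg at hcon
  apply hW
  have hpoly : ∀ P : K₀[X], aeval z P ∈ W := by
    intro P
    rw [aeval_eq_sum_range]
    refine sum_mem fun i _ => ?_
    rw [Algebra.smul_def]
    exact mul_mem (hK _) (pow_mem hz i)
  have hadj : ∀ x ∈ K₀⟮z⟯, x ∈ W := by
    intro x hx
    obtain ⟨r, s, rfl⟩ := (IntermediateField.mem_adjoin_simple_iff K₀ x).1 hx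
    by_cases hs : aeval z s = 0
    · rw [hs, div_zero]; exact zero_mem _
    · have hs0 : s ≠ 0 := by rintro rfl; exact hs (map_zero _)
      have h1 := hcon s hs0
      have h2 : W.valuation (aeval z r) ≤ 1 :=
        (ValuationSubring.valuation_le_one_iff _ _).2 (hpoly r)
      rw [← ValuationSubring.valuation_le_one_iff, map_div₀]
      exact div_le_one_of_le₀ (h2.trans h1) zero_le'
  rw [eq_top_iff]
  intro y _
  have hy : IsIntegral K₀⟮z⟯ y := IsIntegral.of_finite _ y
  obtain ⟨P, hPm, hP⟩ := hy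
  let φ : K₀⟮z⟯ →+* W := (algebraMap K₀⟮z⟯ F).codRestrict W.toSubring (fun x => hadj x x.2)
  have hyW : IsIntegral W y := ⟨P.map φ, hPm.map φ, by rw [eval₂_map]; exact hP⟩
  obtain ⟨w, hw⟩ := IsIntegrallyClosed.isIntegral_iff.1 hyW
  rw [← hw]
  exact w.2

end Alg

end Fermat.Agent.S44.Depth.FIN

end
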