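/-
S44 / DEPTH, block FIN: the concrete assembly `fin_of_hens` (helper124, on the abstract part
`Fin/Abs.lean` of helper289 and the leaf `Fin/Alg.lean`).
-/
import Fermat.Agent.S44.Depth.Fin.Abs
import Fermat.Agent.S44.Depth.Fin.Alg
import Fermat.Agent.S36.BP.Loc.Noeth
import Fermat.Agent.S36.BP.Loc.Basic
import Fermat.Agent.S18.Chart.Overlap

set_option autoImplicit false
set_option linter.style.haveILetI false

noncomputable section

namespace Fermat.Agent.S44.Depth

open Fermat.Agent.S18 Fermat.Agent.S36.BP Polynomial IntermediateField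

variable {K₀ F : Type*} [Field K₀] [Field F] [Algebra K₀ F]

namespace FIN

/-- The chart is generated, as a module over `A₀[z]`, by finitely many elements. -/
theorem exists_chart_gens [CharZero K₀] {A₀ : ValuationSubring K₀} {ϖ₀ : K₀} (hU : IsUnif A₀ ϖ₀)
    (z : F) (htr : Transcendental K₀ z) (hfin : FiniteDimensional K₀⟮z⟯ F) :
    ∃ S₀ : Finset (chart A₀.toSubring z), ∀ b : chart A₀.toSubring z,
      ∃ (p : chart A₀.toSubring z → K₀[X]) (hp : ∀ e i, (p e).coeff i ∈ A₀),
        b = ∑ e ∈ S₀, (∑ i ∈ Finset.range ((p e).natDegree + 1),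
          constToChart A₀ z ⟨(p e).coeff i, hp e i⟩ *
            (⟨z, self_mem_chart _⟩ : chart A₀.toSubring z) ^ i) * e := by
  classical
  have hfg := (finite_and_noeth_integralClosure hU htr hfin).1
  obtain ⟨T, hT⟩ := hfg.fg_top
  refine ⟨T.map (chartEquiv A₀.toSubring z).toEquiv.toEmbedding, fun b => ?_⟩
  have hb : (chartEquiv A₀.toSubring z).symm b ∈ Submodule.span (polyRing A₀.toSubring z)
      (T : Set (integralClosure (polyRing A₀.toSubring z) F)) := by
    rw [hT]; trivial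
  obtain ⟨f, -, hf⟩ := Submodule.mem_span_finset.1 hb
  choose q hq hq' using fun t => (mem_polyRing_iff A₀.toSubring z _).1 (f t).2
  refine ⟨fun e => q ((chartEquiv A₀.toSubring z).symm e), fun e i => hq _ i, ?_⟩
  apply Subtype.ext
  have hb' : (b : F) = (((chartEquiv A₀.toSubring z).symm b :
      integralClosure (polyRing A₀.toSubring z) F) : F) := rfl
  rw [hb', ← hf, Finset.sum_map, AddSubmonoidClass.coe_finsetSum,
    AddSubmonoidClass.coe_finsetSum]
  refine Finset.sum_congr rfl fun t _ => ?_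
  have e1 : ((f t • t : integralClosure (polyRing A₀.toSubring z) F) : F) = (f t : F) * (t : F) :=
    rfl
  rw [e1, ← hq' t, aeval_eq_sum_range]
  change _ = ((∑ i ∈ Finset.range ((q t).natDegree + 1),
    constToChart A₀ z ⟨(q t).coeff i, hq t i⟩ *
      (⟨z, self_mem_chart _⟩ : chart A₀.toSubring z) ^ i : chart A₀.toSubring z) : F) * (t : F)
  rw [AddSubmonoidClass.coe_finsetSum]
  congr 1
  refine Finset.sum_congr rfl fun i _ => ?_
  rw [Algebra.smul_def]
  rfl

end FIN

/-- FIN: the export for LQ-PT. -/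
theorem fin_of_hens [CharZero K₀] {A₀ : ValuationSubring K₀} {ϖ₀ : K₀} (hU : IsUnif A₀ ϖ₀)
    (hH : Hens A₀) (z : F) (htr : Transcendental K₀ z) (hfin : FiniteDimensional K₀⟮z⟯ F)
    (𝔫 : Ideal (chart A₀.toSubring z)) [𝔫.IsPrime]
    (hϖ : ∀ b : chart A₀.toSubring z, (b : F) = algebraMap K₀ F ϖ₀ → b ∈ 𝔫) :
    FinAt A₀ (locSub (chart A₀.toSubring z) 𝔫) := by
  classical
  rintro W ⟨hK, hRW, hW⟩
  have hBW : ∀ b : chart A₀.toSubring z, (b : F) ∈ W := fun b => hRW _ (le_locSub b.2)
  let iK : K₀ →+* W := (algebraMap K₀ F).codRestrict W.toSubring hK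
  letI : Algebra K₀ (IsLocalRing.ResidueField W) := ((IsLocalRing.residue W).comp iK).toAlgebra
  let iB : chart A₀.toSubring z →+* W :=
    (chart A₀.toSubring z).subtype.codRestrict W.toSubring hBW
  let ψ : chart A₀.toSubring z →+* IsLocalRing.ResidueField W := (IsLocalRing.residue W).comp iB
  have hres : ∀ w : W, IsLocalRing.residue W w = 0 ↔ W.valuation (w : F) < 1 := by
    intro w
    rw [IsLocalRing.residue_eq_zero_iff, ValuationSubring.valuation_lt_one_iff]
  have hψ0 : ∀ b : chart A₀.toSubring z, ψ b = 0 ↔ W.valuation (b : F) < 1 := fun b => hres (iB b)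
  have hψc : ∀ a : A₀, ψ (constToChart A₀ z a) = algebraMap K₀ (IsLocalRing.ResidueField W) a :=
    fun a => rfl
  have hker : ∀ b : chart A₀.toSubring z, ψ b = 0 → b ∈ 𝔫 := by
    intro b hb
    by_contra hb𝔫
    have h1 : ((b : F))⁻¹ ∈ W := hRW _ (inv_mem_locSub hb𝔫)
    have h2 := (hψ0 b).1 hb
    have h3 := (W.valuation_le_one_iff _).2 h1
    have h0 : (b : F) ≠ 0 := coe_ne_zero_of_notMem hb𝔫
    have h4 : W.valuation ((b : F) * (b : F)⁻¹) < 1 := by
      rw [map_mul]
      exact mul_lt_one_of_lt_of_le h2 h3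
    rw [mul_inv_cancel₀ h0, map_one] at h4
    exact lt_irrefl _ h4
  have hred : FIN.Red A₀ ϖ₀ ψ 𝔫 := by
    refine ⟨hker, fun a ha => ⟨constToChart A₀ z ⟨a, ha⟩, hψc _⟩, fun b hb => ?_⟩
    have h1 : b - constToChart A₀ z ⟨ϖ₀, hU.mem⟩ ∈ 𝔫 := by
      apply hker
      rw [map_sub, hb, hψc, sub_self]
    have h2 : constToChart A₀ z ⟨ϖ₀, hU.mem⟩ ∈ 𝔫 := hϖ _ rfl
    have := 𝔫.add_mem h1 h2
    rwa [sub_add_cancel] at this
  -- `ψ z` is algebraic
  have hzW : z ∈ W := hBW ⟨z, self_mem_chart _⟩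
  have hz : IsAlgebraic K₀ (ψ ⟨z, self_mem_chart _⟩) := by
    obtain ⟨P, hP0, hP⟩ := FIN.exists_poly_of_hor z hfin W hK hzW hW
    refine ⟨P, hP0, ?_⟩
    have hmem : aeval z P ∈ W := (W.valuation_le_one_iff _).1 hP.le
    have h1 : aeval (ψ ⟨z, self_mem_chart _⟩) P = IsLocalRing.residue W ⟨aeval z P, hmem⟩ := by
      have h2 : (⟨aeval z P, hmem⟩ : W) = ∑ i ∈ Finset.range (P.natDegree + 1),
          iK (P.coeff i) * (⟨z, hzW⟩ : W) ^ i := by
        apply Subtype.ext
        rw [AddSubmonoidClass.coe_finsetSum]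
        change aeval z P = _
        rw [aeval_eq_sum_range]
        refine Finset.sum_congr rfl fun i _ => ?_
        rw [Algebra.smul_def]
        rfl
      rw [h2, map_sum, aeval_eq_sum_range]
      refine Finset.sum_congr rfl fun i _ => ?_
      rw [Algebra.smul_def, map_mul, map_pow]
      rfl
    rw [h1, hres]
    exact hP
  -- generators
  obtain ⟨S₀, hS₀⟩ := FIN.exists_chart_gens hU z htr hfin
  have hS₀' : ∀ b : chart A₀.toSubring z, ψ b ∈ Submodule.span A₀.toSubring
      {y : IsLocalRing.ResidueField W | ∃ (a : ℕ) (e : chart A₀.toSubring z), e ∈ S₀ ∧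
        y = ψ ⟨z, self_mem_chart _⟩ ^ a * ψ e} := by
    intro b
    obtain ⟨p, hp, e⟩ := hS₀ b
    rw [e, map_sum]
    refine Submodule.sum_mem _ fun x hx => ?_
    rw [map_mul, map_sum, Finset.sum_mul]
    refine Submodule.sum_mem _ fun i _ => ?_
    rw [map_mul, map_pow, hψc, mul_assoc]
    have := Submodule.smul_mem (Submodule.span A₀.toSubring
      {y : IsLocalRing.ResidueField W | ∃ (a : ℕ) (e : chart A₀.toSubring z), e ∈ S₀ ∧
        y = ψ ⟨z, self_mem_chart _⟩ ^ a * ψ e}) (⟨(p x).coeff i, hp x i⟩ : A₀.toSubring)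
      (Submodule.subset_span ⟨i, x, hx, rfl⟩)
    rw [Subring.smul_def, Algebra.smul_def] at this
    exact this
  obtain ⟨S, hS⟩ := FIN.fin_abs hU hH hred ⟨z, self_mem_chart _⟩ hz S₀ hS₀'
  refine ⟨S.map (Function.Embedding.subtype _), ?_, ?_⟩
  · intro s hs
    rw [Finset.mem_map] at hs
    obtain ⟨b, -, rfl⟩ := hs
    exact le_locSub b.2
  · intro r hr
    obtain ⟨a, s, hs, e⟩ := mem_locSub.1 hr
    have hrW : r ∈ W := hRW r hr
    have h1 : IsLocalRing.residue W ⟨r, hrW⟩ * ψ s = ψ a := by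
      change IsLocalRing.residue W ⟨r, hrW⟩ * IsLocalRing.residue W (iB s) =
        IsLocalRing.residue W (iB a)
      rw [← map_mul]
      congr 1
      exact Subtype.ext e
    obtain ⟨c, hc, hc'⟩ := hS _ a s hs h1
    refine ⟨fun y => if h : y ∈ chart A₀.toSubring z then c ⟨y, h⟩ else 0, fun y => ?_, ?_⟩
    · dsimp only
      split_ifs
      · exact hc _
      · exact A₀.zero_mem
    · rw [Finset.sum_map]
      have h2 : ∀ x : chart A₀.toSubring z, (if h : (Function.Embedding.subtype _ x : F) ∈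
          chart A₀.toSubring z then c ⟨Function.Embedding.subtype _ x, h⟩ else 0) = c x := by
        intro x
        exact dif_pos x.2
      simp only [h2]
      have h3 : (⟨r, hrW⟩ : W) - ∑ x ∈ S, iK (c x) * iB x ∈ IsLocalRing.maximalIdeal W := by
        rw [← IsLocalRing.residue_eq_zero_iff, map_sub, hc', map_sum, sub_eq_zero]
        refine Finset.sum_congr rfl fun x _ => ?_
        rw [map_mul]
        rfl
      rw [← IsLocalRing.residue_eq_zero_iff, hres] at h3
      convert h3 using 2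
      rw [AddSubgroupClass.coe_sub, AddSubmonoidClass.coe_finsetSum]
      rfl

end Fermat.Agent.S44.Depth

end
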