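/-
S44 / DEPTH, block FIN (sub-architect helper289, proofs helper189), section R:
valuations of the coefficients of `∏ (X - C β)`.
-/
import Mathlib

set_option autoImplicit false

noncomputable section

namespace Fermat.Agent.S44.Depth.FIN

open Polynomial

section RootCoeff

variable {Ω : Type*} [Field Ω] (V : ValuationSubring Ω)

private theorem rootCoeff_zero (β : Ω) (Q : Polynomial Ω) :
    ((X - C β) * Q).coeff 0 = -β * Q.coeff 0 := by
  rw [sub_mul, coeff_sub, coeff_X_mul_zero, coeff_C_mul, zero_sub, neg_mul]

private theorem rootCoeff_succ (β : Ω) (Q : Polynomial Ω) (i : ℕ) :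
    ((X - C β) * Q).coeff (i + 1) = Q.coeff i - β * Q.coeff (i + 1) := by
  rw [sub_mul, coeff_sub, coeff_X_mul, coeff_C_mul]

theorem coeff_prod_mem (s : Multiset Ω) (hs : ∀ β ∈ s, β ∈ V) (i : ℕ) :
    ((s.map fun β => X - C β).prod).coeff i ∈ V := by
  induction s using Multiset.induction_on generalizing i with
  | empty =>
    rw [Multiset.map_zero, Multiset.prod_zero, coeff_one]
    split_ifs
    · exact V.one_mem
    · exact V.zero_mem
  | cons β s ih =>
    have ih' := ih fun γ hγ => hs γ (Multiset.mem_cons_of_mem hγ)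
    have hβ := hs β (Multiset.mem_cons_self β s)
    rw [Multiset.map_cons, Multiset.prod_cons]
    cases i with
    | zero =>
      rw [rootCoeff_zero]
      exact V.mul_mem _ _ (V.neg_mem _ hβ) (ih' 0)
    | succ i =>
      rw [rootCoeff_succ]
      exact V.sub_mem (ih' i) (V.mul_mem _ _ hβ (ih' (i + 1)))

theorem coeff_prod_lt (s : Multiset Ω) (hs : ∀ β ∈ s, V.valuation β < 1) (i : ℕ)
    (hi : i < Multiset.card s) : V.valuation (((s.map fun β => X - C β).prod).coeff i) < 1 := by
  induction s using Multiset.induction_on generalizing i with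
  | empty => exact absurd hi (by simp)
  | cons β s ih =>
    have hs' : ∀ γ ∈ s, V.valuation γ < 1 := fun γ hγ => hs γ (Multiset.mem_cons_of_mem hγ)
    have ih' := ih hs'
    have hβ := hs β (Multiset.mem_cons_self β s)
    have hle : ∀ j, V.valuation (((s.map fun β => X - C β).prod).coeff j) ≤ 1 := fun j =>
      (V.valuation_le_one_iff _).2
        (coeff_prod_mem V s (fun γ hγ => (V.valuation_le_one_iff _).1 (hs' γ hγ).le) j)
    rw [Multiset.map_cons, Multiset.prod_cons]
    cases i with
    | zero =>
      rw [rootCoeff_zero, map_mul, Valuation.map_neg]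
      exact lt_of_le_of_lt (mul_le_of_le_one_right' (hle 0)) hβ
    | succ i =>
      rw [Multiset.card_cons] at hi
      rw [rootCoeff_succ]
      refine Valuation.map_sub_lt _ (ih' i (by omega)) ?_
      rw [map_mul]
      exact lt_of_le_of_lt (mul_le_of_le_one_right' (hle (i + 1))) hβ

private theorem rootCoeff_div_aux (s : Multiset Ω) (hs : ∀ β ∈ s, 1 < V.valuation β) :
    ((s.map fun β => X - C β).prod).coeff 0 ≠ 0 ∧
    (∀ i, V.valuation (((s.map fun β => X - C β).prod).coeff i /
      ((s.map fun β => X - C β).prod).coeff 0) ≤ 1) ∧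
    (∀ i, 1 ≤ i → V.valuation (((s.map fun β => X - C β).prod).coeff i /
      ((s.map fun β => X - C β).prod).coeff 0) < 1) := by
  induction s using Multiset.induction_on with
  | empty =>
    rw [Multiset.map_zero, Multiset.prod_zero]
    refine ⟨by simp, fun i => ?_, fun i hi => ?_⟩
    · rw [coeff_one, coeff_one_zero, div_one]
      split_ifs
      · rw [map_one]
      · rw [map_zero]
        exact zero_le_one
    · rw [coeff_one, if_neg (by omega), zero_div, map_zero]
      exact zero_lt_one
  | cons β s ih =>
    obtain ⟨h0, hle, hlt⟩ := ih fun γ hγ => hs γ (Multiset.mem_cons_of_mem hγ)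
    have hβ := hs β (Multiset.mem_cons_self β s)
    have hβ0 : β ≠ 0 := by
      rintro rfl
      rw [map_zero] at hβ
      exact absurd hβ (not_lt.2 zero_le_one)
    have hβinv : V.valuation β⁻¹ < 1 := by
      rw [map_inv₀]
      exact inv_lt_one_of_one_lt₀ hβ
    rw [Multiset.map_cons, Multiset.prod_cons]
    set Q := (s.map fun β => X - C β).prod with hQ
    have hne : ((X - C β) * Q).coeff 0 ≠ 0 := by
      rw [rootCoeff_zero]
      exact mul_ne_zero (neg_ne_zero.2 hβ0) h0
    have hsucc : ∀ i, V.valuation (((X - C β) * Q).coeff (i + 1) / ((X - C β) * Q).coeff 0) < 1 := by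
      intro i
      have e : ((X - C β) * Q).coeff (i + 1) / ((X - C β) * Q).coeff 0 =
          -(β⁻¹ * (Q.coeff i / Q.coeff 0)) + Q.coeff (i + 1) / Q.coeff 0 := by
        rw [rootCoeff_zero, rootCoeff_succ]
        field_simp
        ring
      rw [e]
      refine Valuation.map_add_lt _ ?_ (hlt (i + 1) (by omega))
      rw [Valuation.map_neg, map_mul]
      exact lt_of_le_of_lt (mul_le_of_le_one_right' (hle i)) hβinv
    refine ⟨hne, fun i => ?_, fun i hi => ?_⟩
    · cases i with
      | zero => rw [div_self hne, map_one]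
      | succ i => exact (hsucc i).le
    · obtain ⟨j, rfl⟩ : ∃ j, i = j + 1 := ⟨i - 1, by omega⟩
      exact hsucc j

theorem coeff_prod_div_lt (s : Multiset Ω) (hs : ∀ β ∈ s, 1 < V.valuation β) (i : ℕ)
    (hi : 1 ≤ i) :
    V.valuation (((s.map fun β => X - C β).prod).coeff i /
      ((s.map fun β => X - C β).prod).coeff 0) < 1 :=
  (rootCoeff_div_aux V s hs).2.2 i hi

theorem coeff_zero_prod_ne_zero (s : Multiset Ω) (hs : ∀ β ∈ s, β ≠ 0) :
    ((s.map fun β => X - C β).prod).coeff 0 ≠ 0 := by
  induction s using Multiset.induction_on with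
  | empty => simp
  | cons β s ih =>
    rw [Multiset.map_cons, Multiset.prod_cons, rootCoeff_zero]
    exact mul_ne_zero (neg_ne_zero.2 (hs β (Multiset.mem_cons_self β s)))
      (ih fun γ hγ => hs γ (Multiset.mem_cons_of_mem hγ))

theorem valuation_coeff_zero_prod (s : Multiset Ω) (hs : ∀ β ∈ s, V.valuation β = 1) :
    V.valuation (((s.map fun β => X - C β).prod).coeff 0) = 1 := by
  induction s using Multiset.induction_on with
  | empty => simp
  | cons β s ih =>
    rw [Multiset.map_cons, Multiset.prod_cons, rootCoeff_zero, map_mul, Valuation.map_neg,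
      hs β (Multiset.mem_cons_self β s), ih fun γ hγ => hs γ (Multiset.mem_cons_of_mem hγ), one_mul]

end RootCoeff

end Fermat.Agent.S44.Depth.FIN

end
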